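import Fermat.Agent.Subconvexity.SecondDerivative
import Mathlib.MeasureTheory.Integral.IntervalIntegral.IntegrationByParts
import Mathlib.Analysis.SpecialFunctions.ExpDeriv
import Mathlib.Analysis.SpecialFunctions.Sqrt

/-!
# The two tests for oscillatory integrals

If the phase has increasing derivative of absolute value at least `δ` the integral of `exp (i P)`
is at most `3 / δ`; if the second derivative is at least `m` it is at most `8 / √m`.
-/

set_option autoImplicit false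

noncomputable section

namespace FA.DirichletLineZeros

open Complex Filter Topology Set MeasureTheory
open FA.Subconvexity (expI norm_expI)

variable {P p p' : ℝ → ℝ} {a b : ℝ}

theorem hasDerivAt_expI_comp {P : ℝ → ℝ} {d t : ℝ} (h : HasDerivAt P d t) :
    HasDerivAt (fun u => expI (P u)) (I * d * expI (P t)) t := by
  simp only [expI]
  refine ((h.ofReal_comp.mul_const I).cexp).congr_deriv ?_
  ring

/-- **First derivative test.** -/
theorem norm_osc_first_le (hab : a ≤ b) (hP : ∀ t ∈ Icc a b, HasDerivAt P (p t) t)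
    (hp : ∀ t ∈ Icc a b, HasDerivAt p (p' t) t) (hc : ContinuousOn p' (Icc a b))
    (h0 : ∀ t ∈ Icc a b, 0 ≤ p' t) {δ : ℝ} (hδ : 0 < δ)
    (hbig : (∀ t ∈ Icc a b, p t ≤ -δ) ∨ (∀ t ∈ Icc a b, δ ≤ p t)) :
    ‖∫ t in a..b, expI (P t)‖ ≤ 3 / δ := by
  have habs : ∀ t ∈ Icc a b, δ ≤ |p t| := fun t ht => by
    rcases hbig with h | h
    · exact le_trans (by linarith [h t ht]) (neg_le_abs _)
    · exact (h t ht).trans (le_abs_self _)
  have hne : ∀ t ∈ Icc a b, p t ≠ 0 := fun t ht h => by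
    have := habs t ht
    rw [h, abs_zero] at this
    linarith
  rw [← uIcc_of_le hab] at hc
  have hpc : ContinuousOn p (uIcc a b) := fun t ht =>
    (hp t (by rwa [uIcc_of_le hab] at ht)).continuousAt.continuousWithinAt
  have hPc : ContinuousOn (fun t => expI (P t)) (uIcc a b) := fun t ht =>
    (hasDerivAt_expI_comp (hP t (by rwa [uIcc_of_le hab] at ht))).continuousAt.continuousWithinAt
  obtain ⟨G, hG⟩ : ∃ G : ℝ → ℂ, G = fun t => expI (P t) / (I * (p t : ℂ)) := ⟨_, rfl⟩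
  obtain ⟨E, hE⟩ : ∃ E : ℝ → ℂ, E = fun t => expI (P t) * ((p' t / p t ^ 2 : ℝ) : ℂ) / I :=
    ⟨_, rfl⟩
  have hEc : ContinuousOn (fun t => p' t / p t ^ 2) (uIcc a b) :=
    hc.div (hpc.pow 2) fun t ht => pow_ne_zero 2 (hne t (by rwa [uIcc_of_le hab] at ht))
  have hEi : IntervalIntegrable E volume a b := by
    rw [hE]
    exact ((hPc.mul (continuous_ofReal.comp_continuousOn hEc)).div_const _).intervalIntegrable
  have hGd : ∀ t ∈ uIcc a b, HasDerivAt G (expI (P t) - E t) t := fun t ht => by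
    rw [uIcc_of_le hab] at ht
    have h1 : (p t : ℂ) ≠ 0 := ofReal_ne_zero.2 (hne t ht)
    rw [hG, hE]
    refine ((hasDerivAt_expI_comp (hP t ht)).div ((hp t ht).ofReal_comp.const_mul I)
      (mul_ne_zero I_ne_zero h1)).congr_deriv ?_
    push_cast
    field_simp
  have e := intervalIntegral.integral_eq_sub_of_hasDerivAt hGd
    ((hPc.intervalIntegrable).sub hEi)
  rw [intervalIntegral.integral_sub hPc.intervalIntegrable hEi, sub_eq_iff_eq_add] at e
  have hGn : ∀ t ∈ Icc a b, ‖G t‖ ≤ 1 / δ := fun t ht => by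
    simp only [hG, norm_div, norm_mul, norm_I, one_mul, norm_expI, Complex.norm_real,
      Real.norm_eq_abs]
    exact one_div_le_one_div_of_le hδ (habs t ht)
  have hint : ∫ t in a..b, -(p' t / p t ^ 2) = 1 / p b - 1 / p a := by
    refine intervalIntegral.integral_eq_sub_of_hasDerivAt (f := fun t => 1 / p t) (fun t ht => ?_)
      hEc.neg.intervalIntegrable
    rw [uIcc_of_le hab] at ht
    simp only [one_div]
    exact ((hp t ht).inv (hne t ht)).congr_deriv (neg_div _ _)
  rw [intervalIntegral.integral_neg] at hint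
  have hEn : ‖∫ t in a..b, E t‖ ≤ 1 / δ := by
    refine (intervalIntegral.norm_integral_le_of_norm_le hab
      (g := fun t => p' t / p t ^ 2) (Eventually.of_forall fun t ht => ?_)
      hEc.intervalIntegrable).trans ?_
    · simp only [hE, norm_div, norm_mul, norm_I, div_one, norm_expI, one_mul, Complex.norm_real]
      rw [Real.norm_of_nonneg (h0 t (Ioc_subset_Icc_self ht)),
        Real.norm_of_nonneg (sq_nonneg _)]
    · have ha := habs a ⟨le_rfl, hab⟩
      have hb := habs b ⟨hab, le_rfl⟩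
      rcases hbig with h | h
      · have u1 : -(1 / δ) ≤ 1 / p b := by
          rw [show -(1 / δ) = 1 / -δ by ring, one_div_le_one_div_of_neg (by linarith)
            (by linarith [h b ⟨hab, le_rfl⟩])]
          exact h b ⟨hab, le_rfl⟩
        have u2 : 1 / p a ≤ 0 :=
          div_nonpos_of_nonneg_of_nonpos zero_le_one (by linarith [h a ⟨le_rfl, hab⟩])
        linarith
      · have u1 : 1 / p a ≤ 1 / δ := one_div_le_one_div_of_le hδ (h a ⟨le_rfl, hab⟩)
        have u2 : 0 ≤ 1 / p b := div_nonneg zero_le_one (by linarith [h b ⟨hab, le_rfl⟩])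
        linarith
  rw [e]
  refine (norm_add_le _ _).trans (le_trans (add_le_add ((norm_sub_le _ _).trans
    (add_le_add (hGn b ⟨hab, le_rfl⟩) (hGn a ⟨le_rfl, hab⟩))) hEn) (le_of_eq (by ring)))

/-- **Second derivative test.** -/
theorem norm_osc_second_le (hab : a ≤ b) (hP : ∀ t ∈ Icc a b, HasDerivAt P (p t) t)
    (hp : ∀ t ∈ Icc a b, HasDerivAt p (p' t) t) (hc : ContinuousOn p' (Icc a b))
    {m : ℝ} (hm : 0 < m) (h0 : ∀ t ∈ Icc a b, m ≤ p' t) :
    ‖∫ t in a..b, expI (P t)‖ ≤ 8 / √m := by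
  obtain ⟨δ, hδe⟩ : ∃ δ, δ = √m := ⟨_, rfl⟩
  have hδ : 0 < δ := hδe ▸ Real.sqrt_pos.2 hm
  have hδ2 : δ ^ 2 = m := hδe ▸ Real.sq_sqrt hm.le
  have hpc : ContinuousOn p (Icc a b) := fun t ht => (hp t ht).continuousAt.continuousWithinAt
  have hgrow : ∀ x ∈ Icc a b, ∀ y ∈ Icc a b, x ≤ y → m * (y - x) ≤ p y - p x := by
    intro x hx y hy hxy
    refine (convex_Icc a b).mul_sub_le_image_sub_of_le_deriv hpc
      (fun t ht => (hp t (interior_subset ht)).differentiableAt.differentiableWithinAt)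
      (fun t ht => ?_) x hx y hy hxy
    rw [(hp t (interior_subset ht)).deriv]
    exact h0 t (interior_subset ht)
  -- the first point where `x ≤ p`
  have hsplit : ∀ x : ℝ, ∃ c ∈ Icc a b,
      (∀ t ∈ Ico a c, p t ≤ x) ∧ ∀ t ∈ Ioc c b, x ≤ p t := by
    intro x
    rcases le_or_gt x (p a) with h1 | h1
    · refine ⟨a, ⟨le_rfl, hab⟩, fun t ht => absurd ht (by simp), fun t ht => ?_⟩
      have := hgrow a ⟨le_rfl, hab⟩ t ⟨ht.1.le, ht.2⟩ ht.1.le
      nlinarith [ht.1]
    rcases le_or_gt (p b) x with h2 | h2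
    · refine ⟨b, ⟨hab, le_rfl⟩, fun t ht => ?_, fun t ht => absurd ht (by simp)⟩
      have := hgrow t ⟨ht.1, ht.2.le⟩ b ⟨hab, le_rfl⟩ ht.2.le
      nlinarith [ht.2]
    obtain ⟨c, hc', hce⟩ := intermediate_value_Icc hab hpc ⟨h1.le, h2.le⟩
    refine ⟨c, hc', fun t ht => ?_, fun t ht => ?_⟩
    · have := hgrow t ⟨ht.1, ht.2.le.trans hc'.2⟩ c hc' ht.2.le
      nlinarith [ht.2]
    · have := hgrow c hc' t ⟨hc'.1.trans ht.1.le, ht.2⟩ ht.1.le
      nlinarith [ht.1]
  obtain ⟨c₁, hc₁, hlo, hlo'⟩ := hsplit (-δ)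
  obtain ⟨c₂, hc₂, hhi, hhi'⟩ := hsplit δ
  have hord : c₁ ≤ c₂ := by
    by_contra h
    push Not at h
    obtain ⟨t, h1, h2⟩ := exists_between h
    linarith [hlo t ⟨hc₂.1.trans h1.le, h2⟩, hhi' t ⟨h1, h2.le.trans hc₁.2⟩]
  have hmid : c₂ - c₁ ≤ 2 / δ := by
    rcases hord.eq_or_lt with h | h
    · rw [h, sub_self]; positivity
    refine le_of_forall_lt_imp_le_of_dense fun w hw => ?_
    rcases le_or_gt w 0 with hw0 | hw0
    · exact hw0.trans (by positivity)
    obtain ⟨x, hx⟩ : ∃ x, x = (c₁ + c₂ - w) / 2 := ⟨_, rfl⟩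
    have h1 := hlo' x ⟨by rw [hx]; linarith, by linarith [hc₂.2]⟩
    have h2 := hhi (x + w) ⟨by linarith [hc₁.1], by rw [hx]; linarith⟩
    have h3 := hgrow x ⟨by linarith [hc₁.1], by linarith [hc₂.2]⟩ (x + w)
      ⟨by linarith [hc₁.1], by linarith [hc₂.2]⟩ (by linarith)
    rw [add_sub_cancel_left, ← hδ2] at h3
    rw [le_div_iff₀ hδ]
    have : δ * (w * δ) ≤ δ * 2 := by linarith
    exact le_of_mul_le_mul_left this hδ
  have hclamp : ∀ u v, a ≤ u → u ≤ v → v ≤ b → ((∀ t ∈ Ioo u v, p t ≤ -δ) ∨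
      (∀ t ∈ Ioo u v, δ ≤ p t)) → ‖∫ t in u..v, expI (P t)‖ ≤ 3 / δ := by
    intro u v hu huv hv hh
    rcases huv.eq_or_lt with rfl | hlt
    · rw [intervalIntegral.integral_same, norm_zero]; positivity
    have hsub : Icc u v ⊆ Icc a b := Icc_subset_Icc hu hv
    refine norm_osc_first_le huv (fun t ht => hP t (hsub ht)) (fun t ht => hp t (hsub ht))
      (hc.mono hsub) (fun t ht => hm.le.trans (h0 t (hsub ht))) hδ ?_
    rcases hh with h | h
    · exact Or.inl fun t ht => le_on_closure h ((hpc.mono hsub).mono (by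
        rw [closure_Ioo hlt.ne])) continuousOn_const (by rwa [closure_Ioo hlt.ne])
    · exact Or.inr fun t ht => le_on_closure h continuousOn_const ((hpc.mono hsub).mono (by
        rw [closure_Ioo hlt.ne])) (by rwa [closure_Ioo hlt.ne])
  have hii : ∀ u v, u ∈ Icc a b → v ∈ Icc a b →
      IntervalIntegrable (fun t => expI (P t)) volume u v := fun u v hu hv =>
    ContinuousOn.intervalIntegrable fun t ht =>
      (hasDerivAt_expI_comp (hP t (uIcc_subset_Icc hu hv ht))).continuousAt.continuousWithinAt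
  rw [← intervalIntegral.integral_add_adjacent_intervals (hii a c₁ ⟨le_rfl, hab⟩ hc₁)
    (hii c₁ b hc₁ ⟨hab, le_rfl⟩),
    ← intervalIntegral.integral_add_adjacent_intervals (hii c₁ c₂ hc₁ hc₂)
      (hii c₂ b hc₂ ⟨hab, le_rfl⟩), ← hδe]
  have b1 := hclamp a c₁ le_rfl hc₁.1 hc₁.2 (Or.inl fun t ht => hlo t ⟨ht.1.le, ht.2⟩)
  have b3 := hclamp c₂ b hc₂.1 hc₂.2 le_rfl (Or.inr fun t ht => hhi' t ⟨ht.1, ht.2.le⟩)
  have b2 : ‖∫ t in c₁..c₂, expI (P t)‖ ≤ 2 / δ := by
    refine (intervalIntegral.norm_integral_le_of_norm_le_const (C := 1) fun t _ =>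
      (norm_expI _).le).trans ?_
    rw [abs_of_nonneg (by linarith), one_mul]
    exact hmid
  refine (norm_add_le _ _).trans ((add_le_add b1 ((norm_add_le _ _).trans (add_le_add b2 b3))).trans
    (le_of_eq (by ring)))

end FA.DirichletLineZeros

end
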