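import Fermat.Agent.DirichletLineZeros.Truncation
import Fermat.Agent.DirichletLineZeros.Oscillation
import Fermat.Agent.DirichletZeroCount.Main

/-!
# Zeros of `L (s, χ)` on the critical line

For a primitive `χ ≠ 1` the function `Z t = exp (i φ t) L (1/2 + it, χ)` has constant argument up
to sign. Over `[T, T + H]` its integral is `O (T^(3/4))` while that of `L` is `H + O (T^(3/4))`, so
`Z` vanishes there once `H` is a large multiple of `T^(3/4)`.
-/

set_option autoImplicit false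

noncomputable section

namespace FA.DirichletLineZeros

open Complex Filter Topology Set MeasureTheory
open DirichletCharacter (LFunction completedLFunction rootNumber)
open FA.DirichletZeroCount (gShift gShift_mem completed_eq_mul completed_conj_inv
  lfunction_conj_inv inv_ne_one' isPrimitive_inv')
open FA.RiemannMangoldt (logGammaReal hasDerivAt_logGammaReal logGam exp_logGam)
open FA.Subconvexity (expI norm_expI expI_add)
open scoped Real ComplexConjugate

variable {q : ℕ} [NeZero q] {χ : DirichletCharacter ℂ q}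

/-- The point `1/2 + it`. -/
def critPt (t : ℝ) : ℂ := ((1 / 2 : ℝ) : ℂ) + t * I

theorem critPt_re (t : ℝ) : (critPt t).re = 1 / 2 := by simp [critPt]

/-- The point at which the Gamma factor is taken. -/
def gammaPt (χ : DirichletCharacter ℂ q) (t : ℝ) : ℂ := ((1 / 2 + gShift χ : ℝ) : ℂ) + t * I

omit [NeZero q] in
theorem gammaPt_re_pos (χ : DirichletCharacter ℂ q) (t : ℝ) : 0 < (gammaPt χ t).re := by
  simp [gammaPt]
  linarith [(gShift_mem χ).1]

/-- The phase of `Λ (1/2 + it, χ)`, turned by `q^(it/2)`. -/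
def phiFn (χ : DirichletCharacter ℂ q) (t : ℝ) : ℝ :=
  t / 2 * Real.log q + (logGammaReal (gammaPt χ t)).im

/-- The rotated function `Z (t, χ)`. -/
def lineZ (χ : DirichletCharacter ℂ q) (t : ℝ) : ℂ := expI (phiFn χ t) * LFunction χ (critPt t)

/-- The main term of the phase. -/
def phaseMain (χ : DirichletCharacter ℂ q) (t : ℝ) : ℝ :=
  t / 2 * Real.log (q * t / (2 * π)) - t / 2 + ((1 / 2 + gShift χ) / 2 - 1 / 2) * (π / 2)

theorem exp_logGammaReal {s : ℂ} (hs : 0 < s.re) : Complex.exp (logGammaReal s) = Gammaℝ s := by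
  rw [Gammaℝ_def, logGammaReal, Complex.exp_add, exp_logGam (by simpa using hs),
    cpow_def_of_ne_zero (ofReal_ne_zero.2 Real.pi_ne_zero), ← ofReal_log Real.pi_pos.le]
  congr 2
  ring

theorem norm_lineZ (χ : DirichletCharacter ℂ q) (t : ℝ) :
    ‖lineZ χ t‖ = ‖LFunction χ (critPt t)‖ := by
  rw [lineZ, norm_mul, norm_expI, one_mul]

theorem continuous_lineZ (hχ : χ ≠ 1) : Continuous (lineZ χ) := by
  have hg : Continuous fun t : ℝ => logGammaReal (gammaPt χ t) :=
    continuous_iff_continuousAt.2 fun t => ContinuousAt.comp' (g := logGammaReal)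
      (hasDerivAt_logGammaReal (gammaPt_re_pos χ t)).continuousAt
      (f := fun u : ℝ => gammaPt χ u) (by unfold gammaPt; fun_prop)
  have hL : Continuous fun t : ℝ => LFunction χ (critPt t) :=
    (DirichletCharacter.differentiable_LFunction hχ).continuous.comp (by unfold critPt; fun_prop)
  have he : Continuous expI := by
    unfold expI
    fun_prop
  exact (he.comp (((continuous_id.div_const 2).mul continuous_const).add
    (Complex.continuous_im.comp hg))).mul hL

/-- **The functional equation on the line**: `Z = W conj Z`. -/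
theorem lineZ_eq_conj (hp : χ.IsPrimitive) (hχ : χ ≠ 1) (t : ℝ) :
    lineZ χ t = rootNumber χ * conj (lineZ χ t) := by
  obtain ⟨r, hr⟩ : ∃ r : ℝ, r = Real.exp (logGammaReal (gammaPt χ t)).re := ⟨_, rfl⟩
  have hr0 : (r : ℂ) ≠ 0 := ofReal_ne_zero.2 (hr ▸ (Real.exp_pos _).ne')
  obtain ⟨X, hX⟩ : ∃ X : ℂ, X = expI (t / 2 * Real.log q) * completedLFunction χ (critPt t) :=
    ⟨_, rfl⟩
  have hXZ : X = (r : ℂ) * lineZ χ t := by
    have e : Gammaℝ (critPt t + gShift χ) =
        (r : ℂ) * expI (logGammaReal (gammaPt χ t)).im := by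
      rw [show critPt t + gShift χ = gammaPt χ t by simp [critPt, gammaPt]; ring,
        ← exp_logGammaReal (gammaPt_re_pos χ t), hr, expI, Complex.ofReal_exp, ← Complex.exp_add,
        Complex.re_add_im]
    rw [hX, completed_eq_mul hχ (by rw [critPt_re]; norm_num), e, lineZ, phiFn, expI_add]
    ring
  have hkey : X = rootNumber χ * conj X := by
    have hs : 0 < (critPt t).re := by rw [critPt_re]; norm_num
    have hfe := hp.completedLFunction_one_sub (conj (critPt t))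
    rw [show (1 : ℂ) - conj (critPt t) = critPt t from Complex.ext (by simp [critPt]; norm_num)
      (by simp [critPt]), completed_conj_inv hχ hs] at hfe
    have hq : (q : ℂ) ≠ 0 := Nat.cast_ne_zero.2 (NeZero.ne q)
    rw [show conj (critPt t) - 1 / 2 = -((t : ℂ) * I) by simp [critPt, map_ofNat]] at hfe
    rw [hX, map_mul, FA.Subconvexity.conj_expI]
    nth_rewrite 1 [hfe]
    have : expI (t / 2 * Real.log q) * (q : ℂ) ^ (-((t : ℂ) * I)) =
        expI (-(t / 2 * Real.log q)) := by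
      rw [expI, expI, cpow_def_of_ne_zero hq, ← Complex.natCast_log, ← Complex.exp_add]
      congr 1
      push_cast
      ring
    rw [← mul_assoc, ← mul_assoc, this]
    ring
  rw [hXZ, map_mul, conj_ofReal] at hkey
  refine mul_left_cancel₀ hr0 ?_
  rw [hkey]
  ring

/-- Without a zero on an interval the integral of `Z` has the size of that of `|L|`. -/
theorem norm_integral_le_lineZ (hp : χ.IsPrimitive) (hχ : χ ≠ 1) {a b : ℝ} (hab : a ≤ b)
    (hne : ∀ t ∈ Icc a b, LFunction χ (critPt t) ≠ 0) :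
    ‖∫ t in a..b, LFunction χ (critPt t)‖ ≤ ‖∫ t in a..b, lineZ χ t‖ := by
  have hc := continuous_lineZ hχ
  obtain ⟨c, hcdef⟩ : ∃ c : ℂ, c = conj (lineZ χ a) := ⟨_, rfl⟩
  have hc0 : c ≠ 0 := by
    rw [hcdef, ne_eq, map_eq_zero, ← norm_eq_zero, norm_lineZ, norm_eq_zero]
    exact hne a ⟨le_rfl, hab⟩
  have hreal : ∀ t, (lineZ χ t * c).im = 0 := fun t => by
    refine Complex.conj_eq_iff_im.1 ?_
    rw [hcdef, map_mul, Complex.conj_conj]
    linear_combination conj (lineZ χ t) * lineZ_eq_conj hp hχ a -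
      conj (lineZ χ a) * lineZ_eq_conj hp hχ t
  obtain ⟨y, hy⟩ : ∃ y : ℝ → ℝ, y = fun t => (lineZ χ t * c).re := ⟨_, rfl⟩
  have hyc : Continuous y := hy ▸ Complex.continuous_re.comp (hc.mul continuous_const)
  have hyn : ∀ t, |y t| = ‖LFunction χ (critPt t)‖ * ‖c‖ := fun t => by
    rw [← norm_lineZ, ← norm_mul, hy, Complex.abs_re_eq_norm.2 (hreal t)]
  have hpos : ∀ t ∈ Icc a b, 0 < y t := fun t ht => by
    have h0 : ∀ u ∈ Icc a b, y u ≠ 0 := fun u hu h => by
      have := hyn u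
      rw [h, abs_zero] at this
      exact (mul_pos (norm_pos_iff.2 (hne u hu)) (norm_pos_iff.2 hc0)).ne this
    have ha : 0 < y a := by
      rw [hy, hcdef]
      simp only [Complex.mul_conj, ofReal_re]
      exact Complex.normSq_pos.2 (fun h => hc0 (by rw [hcdef, h, map_zero]))
    by_contra hneg
    push Not at hneg
    obtain ⟨u, hu, hu0⟩ := intermediate_value_Icc' ht.1 hyc.continuousOn ⟨hneg, ha.le⟩
    exact h0 u ⟨hu.1, hu.2.trans ht.2⟩ hu0
  have hLc : Continuous fun t => LFunction χ (critPt t) :=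
    (DirichletCharacter.differentiable_LFunction hχ).continuous.comp (by unfold critPt; fun_prop)
  have h1 : (∫ t in a..b, ‖LFunction χ (critPt t)‖) * ‖c‖ = ((∫ t in a..b, lineZ χ t) * c).re := by
    rw [← intervalIntegral.integral_mul_const, ← intervalIntegral.integral_mul_const,
      (FA.LevinsonThird.integral_re_im (g := fun t => lineZ χ t * c)
        ((hc.mul continuous_const).intervalIntegrable a b)).1]
    refine intervalIntegral.integral_congr fun t ht => ?_
    rw [uIcc_of_le hab] at ht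
    have h := hyn t
    rw [abs_of_pos (hpos t ht), hy] at h
    exact h.symm
  refine le_of_mul_le_mul_right ?_ (norm_pos_iff.2 hc0)
  rw [← norm_mul (∫ t in a..b, lineZ χ t)]
  refine le_trans (mul_le_mul_of_nonneg_right
    (intervalIntegral.norm_integral_le_integral_norm hab) (norm_nonneg _)) ?_
  rw [h1]
  exact re_le_norm _

/-- `∑ n^(-1/2) ≤ 2 √N`. -/
theorem sum_inv_sqrt_le (N : ℕ) : ∑ n ∈ Finset.Icc 1 N, 1 / √(n : ℝ) ≤ 2 * √(N : ℝ) := by
  induction N with
  | zero => simp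
  | succ N ih =>
    rw [Finset.sum_Icc_succ_top (by omega)]
    have h1 : 0 < √((N + 1 : ℕ) : ℝ) := Real.sqrt_pos.2 (by positivity)
    have h2 : √(N : ℝ) ≤ √((N + 1 : ℕ) : ℝ) :=
      Real.sqrt_le_sqrt (Nat.cast_le.2 (Nat.le_succ N))
    have h3 : 1 / √((N + 1 : ℕ) : ℝ) ≤ 2 * (√((N + 1 : ℕ) : ℝ) - √(N : ℝ)) := by
      rw [div_le_iff₀ h1]
      have e1 := Real.mul_self_sqrt (show (0 : ℝ) ≤ ((N + 1 : ℕ) : ℝ) by positivity)
      have e2 := Real.mul_self_sqrt (Nat.cast_nonneg (α := ℝ) N)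
      push_cast at e1 h1 h2 ⊢
      nlinarith
    linarith

omit [NeZero q] in
theorem norm_term (χ : DirichletCharacter ℂ q) (t : ℝ) {n : ℕ} (hn : 1 ≤ n) :
    ‖χ n * (n : ℂ) ^ (-critPt t)‖ ≤ 1 / √(n : ℝ) := by
  rw [norm_mul, norm_natCast_cpow_of_pos (by omega), neg_re, critPt_re,
    Real.rpow_neg (Nat.cast_nonneg _), ← Real.sqrt_eq_rpow, one_div]
  exact mul_le_of_le_one_left (by positivity) (χ.norm_le_one _)

omit [NeZero q] in
theorem term_split (χ : DirichletCharacter ℂ q) (t : ℝ) {n : ℕ} (hn : 1 ≤ n) :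
    χ n * (n : ℂ) ^ (-critPt t) =
      χ n * ((1 / √(n : ℝ) : ℝ) : ℂ) * expI (-(t * Real.log n)) := by
  have hn0 : (n : ℂ) ≠ 0 := Nat.cast_ne_zero.2 (by omega)
  rw [mul_assoc, critPt, neg_add, cpow_add _ _ hn0, ← ofReal_neg, ← ofReal_natCast,
    ← ofReal_cpow (Nat.cast_nonneg _), Real.rpow_neg (Nat.cast_nonneg _), ← Real.sqrt_eq_rpow,
    one_div, ofReal_natCast, cpow_def_of_ne_zero hn0, ← Complex.natCast_log, expI]
  congr 3
  push_cast
  ring

/-- The number of terms used at height `T`. -/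
def lineCut (T : ℝ) : ℕ := ⌈T ^ (3 / 2 : ℝ)⌉₊

theorem lineCut_bounds {T : ℝ} (hT : 1 ≤ T) :
    T ≤ lineCut T ∧ T ^ (3 / 2 : ℝ) ≤ lineCut T ∧ √(lineCut T : ℝ) ≤ 2 * T ^ (3 / 4 : ℝ) := by
  have h1 : T ^ (3 / 2 : ℝ) ≤ lineCut T := Nat.le_ceil _
  have h2 : T ≤ T ^ (3 / 2 : ℝ) := by
    conv_lhs => rw [← Real.rpow_one T]
    exact Real.rpow_le_rpow_of_exponent_le hT (by norm_num)
  refine ⟨h2.trans h1, h1, Real.sqrt_le_iff.2 ⟨by positivity, ?_⟩⟩
  have h3 := Nat.ceil_lt_add_one (show 0 ≤ T ^ (3 / 2 : ℝ) by positivity)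
  rw [mul_pow, ← Real.rpow_natCast (T ^ (3 / 4 : ℝ)) 2, ← Real.rpow_mul (by linarith),
    show (3 / 4 : ℝ) * (2 : ℕ) = 3 / 2 by norm_num]
  rw [lineCut]
  linarith

/-- The series cut at `T^(3/2)` on `[T, 2T]`. -/
theorem line_truncation (hχ : χ ≠ 1) {T t : ℝ} (hT : (q : ℝ) ≤ T) (h1 : T ≤ t) (h2 : t ≤ 2 * T) :
    ‖LFunction χ (critPt t) - ∑ n ∈ Finset.Icc 1 (lineCut T), χ n * (n : ℂ) ^ (-critPt t)‖ ≤
      66 * (q : ℝ) ^ 2 * T ^ (-1 / 4 : ℝ) := by
  have hq : (1 : ℝ) ≤ q := Nat.one_le_cast.2 NeZero.one_le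
  have hT1 : 1 ≤ T := hq.trans hT
  obtain ⟨hc1, hc2, -⟩ := lineCut_bounds hT1
  have h := norm_lfunction_sub_sum_le hχ (s := critPt t) (by rw [critPt_re]; norm_num)
    (N := lineCut T) (Nat.cast_le.1 (hT.trans hc1))
  rw [critPt_re] at h
  refine h.trans ?_
  have n1 : ‖critPt t‖ ≤ 4 * T := by
    refine (norm_le_abs_re_add_abs_im _).trans ?_
    rw [critPt_re]
    simp [critPt]
    rw [abs_of_nonneg (by linarith : 0 ≤ t)]
    linarith
  have n2 : ‖critPt t + 1‖ ≤ 4 * T := by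
    refine (norm_le_abs_re_add_abs_im _).trans ?_
    rw [add_re, critPt_re, one_re, abs_of_nonneg (by norm_num)]
    simp [critPt]
    rw [abs_of_nonneg (by linarith : 0 ≤ t)]
    linarith
  have hN0 : (0 : ℝ) < T ^ (3 / 2 : ℝ) := by positivity
  have r1 : (lineCut T : ℝ) ^ (-(1 / 2) : ℝ) ≤ T ^ (-1 / 4 : ℝ) := by
    refine (Real.rpow_le_rpow_of_nonpos hN0 hc2 (by norm_num)).trans ?_
    rw [← Real.rpow_mul (by linarith)]
    exact Real.rpow_le_rpow_of_exponent_le hT1 (by norm_num)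
  have r2 : (lineCut T : ℝ) ^ (-(1 / 2) - 1 : ℝ) ≤ T ^ (-9 / 4 : ℝ) := by
    refine (Real.rpow_le_rpow_of_nonpos hN0 hc2 (by norm_num)).trans (le_of_eq ?_)
    rw [← Real.rpow_mul (by linarith)]
    norm_num
  have e : T * T * T ^ (-9 / 4 : ℝ) = T ^ (-1 / 4 : ℝ) := by
    rw [← sq, ← Real.rpow_natCast T 2, ← Real.rpow_add (by linarith)]
    norm_num
  have r3 : ‖critPt t‖ * ‖critPt t + 1‖ ≤ 16 * (T * T) :=
    (mul_le_mul n1 n2 (norm_nonneg _) (by linarith)).trans (le_of_eq (by ring))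
  calc 2 * (q : ℝ) * (lineCut T : ℝ) ^ (-(1 / 2) : ℝ) +
        4 * (q : ℝ) ^ 2 * (‖critPt t‖ * ‖critPt t + 1‖) * (lineCut T : ℝ) ^ (-(1 / 2) - 1 : ℝ)
      ≤ 2 * (q : ℝ) ^ 2 * T ^ (-1 / 4 : ℝ) +
          4 * (q : ℝ) ^ 2 * (16 * (T * T)) * T ^ (-9 / 4 : ℝ) := by
        gcongr
        nlinarith
    _ = 66 * (q : ℝ) ^ 2 * T ^ (-1 / 4 : ℝ) := by rw [← e]; ring

/-- The integral of one rotated term. -/
theorem norm_term_integral_le (χ : DirichletCharacter ℂ q) {T b : ℝ} (hT : 1 ≤ T) (h1 : T ≤ b)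
    (h2 : b ≤ 2 * T) (n : ℕ) (hn : 1 ≤ n) :
    ‖∫ t in T..b, expI (phaseMain χ t - t * Real.log n)‖ ≤ 16 * √T ∧
      (2 * √((q : ℝ) * T) ≤ n → ‖∫ t in T..b, expI (phaseMain χ t - t * Real.log n)‖ ≤ 3) := by
  have hq : (0 : ℝ) < q := Nat.cast_pos.2 (NeZero.pos q)
  have hpos : ∀ t ∈ Icc T b, 0 < t := fun t ht => by linarith [ht.1]
  obtain ⟨p, hp⟩ : ∃ p : ℝ → ℝ,
      p = fun t => Real.log ((q : ℝ) * t / (2 * π)) / 2 - Real.log n := ⟨_, rfl⟩
  have hP : ∀ t ∈ Icc T b,
      HasDerivAt (fun u => phaseMain χ u - u * Real.log n) (p t) t := fun t ht => by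
    have h0 := hpos t ht
    have hl := (((hasDerivAt_id' t).const_mul (q : ℝ)).div_const (2 * π)).log
      (by positivity : (q : ℝ) * t / (2 * π) ≠ 0)
    refine (((((hasDerivAt_id' t).div_const 2).mul hl).sub ((hasDerivAt_id' t).div_const 2)
      ).add_const (((1 / 2 + gShift χ) / 2 - 1 / 2) * (π / 2))).sub
        ((hasDerivAt_id' t).mul_const (Real.log n)) |>.congr_deriv ?_
    rw [hp]
    field_simp
    ring
  have hp' : ∀ t ∈ Icc T b, HasDerivAt p (1 / (2 * t)) t := fun t ht => by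
    have h0 := hpos t ht
    have hl := (((hasDerivAt_id' t).const_mul (q : ℝ)).div_const (2 * π)).log
      (by positivity : (q : ℝ) * t / (2 * π) ≠ 0)
    rw [hp]
    refine ((hl.div_const 2).sub_const (Real.log n)).congr_deriv ?_
    field_simp
  have hc : ContinuousOn (fun t : ℝ => 1 / (2 * t)) (Icc T b) :=
    continuousOn_const.div (by fun_prop) fun t ht => by linarith [hpos t ht]
  refine ⟨(norm_osc_second_le h1 hP hp' hc (m := 1 / (4 * T)) (by positivity) fun t ht =>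
    one_div_le_one_div_of_le (by linarith [hpos t ht]) (by linarith [ht.2])).trans ?_, fun hbig =>
    (norm_osc_first_le h1 hP hp' hc (fun t ht => by have := hpos t ht; positivity) one_pos
      (Or.inl fun t ht => ?_)).trans (by norm_num)⟩
  · rw [Real.sqrt_div zero_le_one, Real.sqrt_one, div_div_eq_mul_div, div_one,
      Real.sqrt_mul (by norm_num) T, show √(4 : ℝ) = 2 by
        rw [show (4 : ℝ) = 2 ^ 2 by norm_num, Real.sqrt_sq two_pos.le]]
    linarith
  · have h0 := hpos t ht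
    have hn0 : (0 : ℝ) < n := Nat.cast_pos.2 (by omega)
    have hsq : 4 * ((q : ℝ) * T) ≤ (n : ℝ) ^ 2 := by
      have := pow_le_pow_left₀ (by positivity) hbig 2
      rw [mul_pow, Real.sq_sqrt (by positivity)] at this
      linarith
    have hle : Real.exp 2 * ((q : ℝ) * t / (2 * π)) ≤ (n : ℝ) ^ 2 := by
      refine le_trans ?_ hsq
      have he : Real.exp 2 ≤ 8 := by
        rw [show (2 : ℝ) = 1 + 1 by norm_num, Real.exp_add]
        nlinarith [Real.exp_one_lt_d9, Real.exp_pos 1]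
      refine (mul_le_mul_of_nonneg_right he (by positivity)).trans ?_
      rw [← mul_div_assoc, div_le_iff₀ (by positivity)]
      nlinarith [ht.2, Real.pi_gt_three, mul_pos hq (by linarith : (0 : ℝ) < T)]
    have hl := Real.log_le_log (by positivity) hle
    rw [Real.log_mul (Real.exp_ne_zero 2) (by positivity), Real.log_exp, Real.log_pow] at hl
    push_cast at hl
    rw [hp]
    linarith

theorem norm_expI_sub_le (x y : ℝ) : ‖expI x - expI y‖ ≤ |x - y| := by
  have e : expI x - expI y = expI y * (Complex.exp (I * ((x - y : ℝ) : ℂ)) - 1) := by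
    rw [mul_sub, mul_one, expI, expI, ← Complex.exp_add]
    congr 2
    push_cast
    ring
  rw [e, norm_mul, norm_expI, one_mul]
  exact Real.norm_exp_I_mul_ofReal_sub_one_le.trans_eq (Real.norm_eq_abs _)

theorem abs_phiFn_sub_le (χ : DirichletCharacter ℂ q) {t : ℝ} (ht : 0 < t) :
    |phiFn χ t - phaseMain χ t| ≤ 20 / t := by
  have hq : (q : ℝ) ≠ 0 := Nat.cast_ne_zero.2 (NeZero.ne q)
  obtain ⟨a0, a1⟩ := gShift_mem χ
  have h := FA.ArgumentMean.abs_im_logGammaReal_sub_le (σ := 1 / 2 + gShift χ) (t := t)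
    (by linarith) ht
  refine le_trans (le_of_eq ?_) (h.trans (div_le_div_of_nonneg_right (by nlinarith) ht.le))
  congr 1
  rw [phiFn, phaseMain, gammaPt, mul_div_assoc, Real.log_mul hq (by positivity)]
  ring

/-- **The upper bound.** -/
theorem exists_lineZ_integral_le (hχ : χ ≠ 1) : ∃ C, 0 ≤ C ∧ ∀ T b : ℝ, (q : ℝ) ≤ T → T ≤ b →
    b ≤ 2 * T → ‖∫ t in T..b, lineZ χ t‖ ≤ C * T ^ (3 / 4 : ℝ) := by
  obtain ⟨A, hA⟩ : ∃ A : ℝ, A = 66 * (q : ℝ) ^ 2 := ⟨_, rfl⟩
  refine ⟨20 * (4 + A) + A + 64 * q + 12, by rw [hA]; positivity, fun T b hTq hTb hb => ?_⟩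
  have hq : (1 : ℝ) ≤ q := Nat.one_le_cast.2 NeZero.one_le
  have hA0 : 0 ≤ A := by rw [hA]; positivity
  have hT : 1 ≤ T := hq.trans hTq
  have hsub : ∀ t ∈ uIoc T b, T ≤ t ∧ t ≤ 2 * T := fun t ht => by
    rw [uIoc_of_le hTb] at ht
    exact ⟨ht.1.le, ht.2.trans hb⟩
  obtain ⟨-, -, hroot⟩ := lineCut_bounds hT
  obtain ⟨N, hN⟩ : ∃ N, N = lineCut T := ⟨_, rfl⟩
  rw [← hN] at hroot
  obtain ⟨S, hS⟩ : ∃ S : ℝ → ℂ,
      S = fun t => ∑ n ∈ Finset.Icc 1 N, χ n * (n : ℂ) ^ (-critPt t) := ⟨_, rfl⟩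
  obtain ⟨W, hW⟩ : ∃ W : ℝ, W = T ^ (3 / 4 : ℝ) := ⟨_, rfl⟩
  rw [← hW] at hroot ⊢
  have hW0 : 0 ≤ W := by rw [hW]; positivity
  have hTW : T * T ^ (-1 / 4 : ℝ) = W := by
    rw [hW, ← Real.rpow_one_add' (by linarith) (by norm_num)]
    norm_num
  have htr : ∀ t ∈ uIoc T b, ‖LFunction χ (critPt t) - S t‖ ≤ A * T ^ (-1 / 4 : ℝ) :=
    fun t ht => by
    rw [hS, hN, hA]
    exact line_truncation hχ hTq (hsub t ht).1 (hsub t ht).2
  have hSn : ∀ t, ‖S t‖ ≤ 4 * W := fun t => by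
    rw [hS]
    refine (norm_sum_le _ _).trans ((Finset.sum_le_sum fun n hn => norm_term χ t
      (Finset.mem_Icc.1 hn).1).trans ((sum_inv_sqrt_le N).trans ?_))
    linarith
  have hS_split : ∀ t, expI (phaseMain χ t) * S t = ∑ n ∈ Finset.Icc 1 N,
      χ n * ((1 / √(n : ℝ) : ℝ) : ℂ) * expI (phaseMain χ t - t * Real.log n) := fun t => by
    rw [hS, Finset.mul_sum]
    refine Finset.sum_congr rfl fun n hn => ?_
    rw [term_split χ t (Finset.mem_Icc.1 hn).1, sub_eq_add_neg, expI_add]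
    ring
  have hPc : ∀ n : ℕ, ContinuousOn (fun t => expI (phaseMain χ t - t * Real.log n)) (uIcc T b) :=
    fun n t ht => by
    rw [uIcc_of_le hTb] at ht
    have h0 : 0 < t := by linarith [ht.1]
    have hl : ContinuousAt (fun u : ℝ => Real.log ((q : ℝ) * u / (2 * π))) t :=
      ContinuousAt.log (by fun_prop) (by positivity)
    have he : Continuous expI := by
      unfold expI
      fun_prop
    exact (he.continuousAt.comp' (((((continuousAt_id.div_const 2).mul hl).sub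
      (continuousAt_id.div_const 2)).add continuousAt_const).sub
        (continuousAt_id.mul continuousAt_const))).continuousWithinAt
  have hmain : ‖∫ t in T..b, expI (phaseMain χ t) * S t‖ ≤ (64 * q + 12) * W := by
    simp only [hS_split]
    rw [intervalIntegral.integral_finsetSum fun n _ =>
      (hPc n).intervalIntegrable.const_mul _]
    simp only [intervalIntegral.integral_const_mul]
    refine (norm_sum_le _ _).trans ?_
    obtain ⟨N₀, hN₀⟩ : ∃ N₀ : ℕ, N₀ = ⌈2 * √((q : ℝ) * T)⌉₊ := ⟨_, rfl⟩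
    have hterm : ∀ n ∈ Finset.Icc 1 N,
        ‖χ n * ((1 / √(n : ℝ) : ℝ) : ℂ) * ∫ t in T..b, expI (phaseMain χ t - t * Real.log n)‖ ≤
          (if n ≤ N₀ then 16 * √T * (1 / √(n : ℝ)) else 0) + 3 * (1 / √(n : ℝ)) := fun n hn => by
      have hn1 := (Finset.mem_Icc.1 hn).1
      obtain ⟨b1, b2⟩ := norm_term_integral_le χ hT hTb hb n hn1
      rw [norm_mul, norm_mul, Complex.norm_real, Real.norm_of_nonneg (by positivity)]
      refine le_trans (mul_le_mul_of_nonneg_right (mul_le_of_le_one_left (by positivity)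
        (χ.norm_le_one _)) (norm_nonneg _)) ?_
      have hnn : 0 ≤ 1 / √(n : ℝ) := by positivity
      split_ifs with h
      · nlinarith
      · have hbig : 2 * √((q : ℝ) * T) ≤ n :=
          (Nat.le_ceil _).trans (Nat.cast_le.2 (hN₀ ▸ (not_le.1 h).le))
        nlinarith [b2 hbig]
    refine (Finset.sum_le_sum hterm).trans ?_
    rw [Finset.sum_add_distrib, ← Finset.sum_filter, ← Finset.mul_sum, ← Finset.mul_sum]
    have s1 : ∑ n ∈ (Finset.Icc 1 N).filter (fun n => n ≤ N₀), 1 / √(n : ℝ) ≤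
        2 * √(N₀ : ℝ) := by
      refine le_trans (Finset.sum_le_sum_of_subset_of_nonneg (fun n hn => ?_)
        fun n _ _ => by positivity) (sum_inv_sqrt_le N₀)
      rw [Finset.mem_filter, Finset.mem_Icc] at hn
      exact Finset.mem_Icc.2 ⟨hn.1.1, hn.2⟩
    have s2 := sum_inv_sqrt_le N
    have hN₀le : √T * √(N₀ : ℝ) ≤ 2 * q * W := by
      have h1 : (N₀ : ℝ) ≤ 4 * q * √T := by
        have h := Nat.ceil_lt_add_one (show 0 ≤ 2 * √((q : ℝ) * T) by positivity)
        rw [← hN₀, Real.sqrt_mul (by linarith)] at h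
        have hqs : √(q : ℝ) ≤ q := Real.sqrt_le_iff.2 ⟨by linarith, by nlinarith⟩
        have hT1 : 1 ≤ √T := Real.one_le_sqrt.2 hT
        nlinarith [mul_le_mul_of_nonneg_right hqs (Real.sqrt_nonneg T)]
      have h2 : √T * √(√T) = W := by
        rw [hW, Real.sqrt_eq_rpow, Real.sqrt_eq_rpow, ← Real.rpow_mul (by linarith),
          ← Real.rpow_add (by linarith)]
        norm_num
      calc √T * √(N₀ : ℝ) ≤ √T * √(4 * q * √T) := by gcongr
        _ = √(4 * q) * (√T * √(√T)) := by rw [Real.sqrt_mul (by positivity) (√T)]; ring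
        _ ≤ 2 * q * W := by
            rw [h2]
            exact mul_le_mul_of_nonneg_right (Real.sqrt_le_iff.2
              ⟨by linarith, by nlinarith⟩) hW0
    have h5 := mul_le_mul_of_nonneg_left s1 (show 0 ≤ 16 * √T by positivity)
    nlinarith
  have hcZ := continuous_lineZ hχ
  have hSc : ContinuousOn (fun t => expI (phaseMain χ t) * S t) (uIcc T b) := by
    simp only [hS_split]
    exact continuousOn_finsetSum _ fun n _ => continuousOn_const.mul (hPc n)
  have hrest : ‖(∫ t in T..b, lineZ χ t) - ∫ t in T..b, expI (phaseMain χ t) * S t‖ ≤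
      (20 * (4 + A) + A) * W := by
    rw [← intervalIntegral.integral_sub (hcZ.intervalIntegrable _ _) hSc.intervalIntegrable]
    refine (intervalIntegral.norm_integral_le_of_norm_le_const
      (C := 20 / T * ((4 + A) * W) + A * T ^ (-1 / 4 : ℝ)) fun t ht => ?_).trans ?_
    · obtain ⟨t1, t2⟩ := hsub t ht
      have e : lineZ χ t - expI (phaseMain χ t) * S t =
          (expI (phiFn χ t) - expI (phaseMain χ t)) * LFunction χ (critPt t) +
            expI (phaseMain χ t) * (LFunction χ (critPt t) - S t) := by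
        rw [lineZ]; ring
      rw [e]
      refine (norm_add_le _ _).trans (add_le_add ?_ ?_)
      · rw [norm_mul]
        refine mul_le_mul ((norm_expI_sub_le _ _).trans ((abs_phiFn_sub_le χ (by linarith)).trans
          (div_le_div_of_nonneg_left (by norm_num) (by linarith) t1))) ?_ (norm_nonneg _)
          (by positivity)
        refine (norm_le_norm_add_norm_sub' _ (S t)).trans ?_
        have h1 := htr t ht
        have h2 : T ^ (-1 / 4 : ℝ) ≤ W :=
          hW ▸ Real.rpow_le_rpow_of_exponent_le hT (by norm_num)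
        have h3 := mul_le_mul_of_nonneg_left h2 hA0
        linarith [hSn t]
      · rw [norm_mul, norm_expI, one_mul]
        exact htr t ht
    · have hTpos : 0 < T := by linarith
      rw [abs_of_nonneg (by linarith)]
      refine (mul_le_mul_of_nonneg_left (show b - T ≤ T by linarith) (by positivity)).trans
        (le_of_eq ?_)
      rw [← hTW]
      field_simp
  calc ‖∫ t in T..b, lineZ χ t‖
      ≤ ‖∫ t in T..b, expI (phaseMain χ t) * S t‖ +
          ‖(∫ t in T..b, lineZ χ t) - ∫ t in T..b, expI (phaseMain χ t) * S t‖ :=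
        norm_le_norm_add_norm_sub' _ _
    _ ≤ (64 * q + 12) * W + (20 * (4 + A) + A) * W := add_le_add hmain hrest
    _ = _ := by ring

/-- **The lower bound.** -/
theorem exists_lfunction_integral_ge (hχ : χ ≠ 1) : ∃ C, 0 ≤ C ∧ ∀ T b : ℝ, (q : ℝ) ≤ T → T ≤ b →
    b ≤ 2 * T → b - T - C * T ^ (3 / 4 : ℝ) ≤ ‖∫ t in T..b, LFunction χ (critPt t)‖ := by
  obtain ⟨A, hA⟩ : ∃ A : ℝ, A = 66 * (q : ℝ) ^ 2 := ⟨_, rfl⟩
  refine ⟨A + 24, by rw [hA]; positivity, fun T b hTq hTb hb => ?_⟩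
  have hq : (1 : ℝ) ≤ q := Nat.one_le_cast.2 NeZero.one_le
  have hA0 : 0 ≤ A := by rw [hA]; positivity
  have hT : 1 ≤ T := hq.trans hTq
  obtain ⟨hc1, -, hroot⟩ := lineCut_bounds hT
  obtain ⟨N, hN⟩ : ∃ N, N = lineCut T := ⟨_, rfl⟩
  rw [← hN] at hroot hc1
  have hN1 : 1 ≤ N := Nat.one_le_cast.1 (hT.trans hc1)
  obtain ⟨W, hW⟩ : ∃ W : ℝ, W = T ^ (3 / 4 : ℝ) := ⟨_, rfl⟩
  rw [← hW] at hroot ⊢
  have hTW : T * T ^ (-1 / 4 : ℝ) = W := by
    rw [hW, ← Real.rpow_one_add' (by linarith) (by norm_num)]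
    norm_num
  have hLc : Continuous fun t => LFunction χ (critPt t) :=
    (DirichletCharacter.differentiable_LFunction hχ).continuous.comp (by unfold critPt; fun_prop)
  have hcc : ∀ n : ℕ, Continuous fun t : ℝ => expI (-(t * Real.log n)) := fun n => by
    unfold expI
    fun_prop
  obtain ⟨S, hS⟩ : ∃ S : ℝ → ℂ, S = fun t => ∑ n ∈ Finset.Icc 1 N,
      χ n * ((1 / √(n : ℝ) : ℝ) : ℂ) * expI (-(t * Real.log n)) := ⟨_, rfl⟩
  have hSc : Continuous S := by
    rw [hS]
    exact continuous_finsetSum _ fun n _ => continuous_const.mul (hcc n)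
  have herr : ‖(∫ t in T..b, LFunction χ (critPt t)) - ∫ t in T..b, S t‖ ≤ A * W := by
    rw [← intervalIntegral.integral_sub (hLc.intervalIntegrable _ _) (hSc.intervalIntegrable _ _)]
    refine (intervalIntegral.norm_integral_le_of_norm_le_const
      (C := A * T ^ (-1 / 4 : ℝ)) fun t ht => ?_).trans ?_
    · rw [uIoc_of_le hTb] at ht
      refine le_trans (le_of_eq ?_) (hA ▸ line_truncation hχ hTq ht.1.le (ht.2.trans hb))
      rw [hS, hN]
      congr 2
      exact Finset.sum_congr rfl fun n hn => (term_split χ t (Finset.mem_Icc.1 hn).1).symm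
    · rw [abs_of_nonneg (by linarith), ← hTW, mul_comm T, ← mul_assoc]
      exact mul_le_mul_of_nonneg_left (by linarith) (by positivity)
  have hsum : ‖(∫ t in T..b, S t) - ((b - T : ℝ) : ℂ)‖ ≤ 24 * W := by
    simp only [hS]
    rw [intervalIntegral.integral_finsetSum fun n _ =>
      ((hcc n).intervalIntegrable _ _).const_mul _,
      ← Finset.add_sum_Ioc_eq_sum_Icc hN1]
    have e : (∫ t in T..b, χ ((1 : ℕ) : ZMod q) * ((1 / √((1 : ℕ) : ℝ) : ℝ) : ℂ) *
        expI (-(t * Real.log ((1 : ℕ) : ℝ)))) = ((b - T : ℝ) : ℂ) := by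
      simp [expI]
    rw [e, add_sub_cancel_left]
    simp only [intervalIntegral.integral_const_mul]
    refine (norm_sum_le _ _).trans ?_
    refine (Finset.sum_le_sum (g := fun n : ℕ => 6 * (1 / √(n : ℝ))) fun n hn => ?_).trans ?_
    · have hn2 : 2 ≤ n := (Finset.mem_Ioc.1 hn).1
      have hl : 1 / 2 ≤ Real.log n := by
        have := Real.log_le_log two_pos (show (2 : ℝ) ≤ n by exact_mod_cast hn2)
        linarith [Real.log_two_gt_d9]
      have h := norm_osc_first_le (P := fun t => -(t * Real.log n))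
        (p := fun _ => -Real.log n) (p' := fun _ => 0) hTb
        (fun t _ => ((hasDerivAt_id' t).mul_const (Real.log n)).neg.congr_deriv (by simp))
        (fun t _ => hasDerivAt_const t _) continuousOn_const (fun t _ => le_rfl)
        (δ := 1 / 2) (by norm_num) (Or.inl fun t _ => by linarith)
      rw [norm_mul, norm_mul, Complex.norm_real, Real.norm_of_nonneg (by positivity)]
      refine (mul_le_mul (mul_le_of_le_one_left (by positivity) (χ.norm_le_one _)) h
        (norm_nonneg _) (by positivity)).trans (le_of_eq ?_)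
      ring
    · rw [← Finset.mul_sum]
      have h1 : ∑ n ∈ Finset.Ioc 1 N, 1 / √(n : ℝ) ≤ 2 * √(N : ℝ) :=
        (Finset.sum_le_sum_of_subset_of_nonneg Finset.Ioc_subset_Icc_self
          fun n _ _ => by positivity).trans (sum_inv_sqrt_le N)
      linarith
  have h3 := norm_sub_le_norm_sub_add_norm_sub (∫ t in T..b, LFunction χ (critPt t))
    (∫ t in T..b, S t) ((b - T : ℝ) : ℂ)
  have h4 := norm_sub_norm_le ((b - T : ℝ) : ℂ) (∫ t in T..b, LFunction χ (critPt t))
  rw [Complex.norm_real, Real.norm_of_nonneg (by linarith), norm_sub_rev] at h4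
  linarith

/-- **A zero on the critical line in every interval of length `C T^(3/4)`.** -/
theorem exists_line_zero (hp : χ.IsPrimitive) (hχ : χ ≠ 1) : ∃ C T₀ : ℝ, 0 < C ∧ 1 ≤ T₀ ∧
    ∀ T : ℝ, T₀ ≤ T → C * T ^ (3 / 4 : ℝ) ≤ T ∧
      ∃ t ∈ Icc T (T + C * T ^ (3 / 4 : ℝ)), LFunction χ (critPt t) = 0 := by
  obtain ⟨A, hA, hup⟩ := exists_lineZ_integral_le hχ
  obtain ⟨B, hB, hlow⟩ := exists_lfunction_integral_ge hχ
  obtain ⟨C, hC⟩ : ∃ C, C = A + B + 1 := ⟨_, rfl⟩
  have hC1 : 1 ≤ C := by rw [hC]; linarith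
  refine ⟨C, max q (C ^ 4), by linarith, (one_le_pow₀ hC1).trans (le_max_right _ _),
    fun T hT => ?_⟩
  have hq : (q : ℝ) ≤ T := (le_max_left _ _).trans hT
  have hC4 : C ^ 4 ≤ T := (le_max_right _ _).trans hT
  have hT1 : 1 ≤ T := (one_le_pow₀ hC1).trans hC4
  obtain ⟨W, hW⟩ : ∃ W : ℝ, W = T ^ (3 / 4 : ℝ) := ⟨_, rfl⟩
  have hW0 : 0 < W := by rw [hW]; positivity
  rw [← hW]
  have hle : C * W ≤ T := by
    have h1 : C ≤ T ^ (1 / 4 : ℝ) := by
      refine le_trans (le_of_eq ?_) (Real.rpow_le_rpow (by positivity) hC4 (by norm_num))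
      rw [← Real.rpow_natCast C 4, ← Real.rpow_mul (by linarith)]
      norm_num
    calc C * W ≤ T ^ (1 / 4 : ℝ) * W := mul_le_mul_of_nonneg_right h1 hW0.le
      _ = T := by
          rw [hW, ← Real.rpow_add (by linarith)]
          norm_num
  refine ⟨hle, ?_⟩
  by_contra h
  push Not at h
  have hCW : 0 ≤ C * W := by positivity
  have h1 := norm_integral_le_lineZ hp hχ (show T ≤ T + C * W by linarith) h
  have h2 := hup T (T + C * W) hq (by linarith) (by linarith)
  have h3 := hlow T (T + C * W) hq (by linarith) (by linarith)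
  rw [← hW] at h2 h3
  have e : C * W = A * W + B * W + W := by rw [hC]; ring
  linarith

/-- Zeros of arbitrarily large height. -/
theorem exists_line_zero_above (hp : χ.IsPrimitive) (hχ : χ ≠ 1) (T : ℝ) :
    (∃ t, T ≤ t ∧ LFunction χ (critPt t) = 0) ∧ ∃ t, t ≤ T ∧ LFunction χ (critPt t) = 0 := by
  obtain ⟨C, T₀, hC, h1, h⟩ := exists_line_zero hp hχ
  obtain ⟨C', T₁, hC', h1', h'⟩ := exists_line_zero (isPrimitive_inv' hp) (inv_ne_one' hχ)
  refine ⟨?_, ?_⟩
  · obtain ⟨-, t, ht, h0⟩ := h (max T₀ T) (le_max_left _ _)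
    exact ⟨t, (le_max_right _ _).trans ht.1, h0⟩
  · obtain ⟨-, t, ht, h0⟩ := h' (max T₁ (-T)) (le_max_left _ _)
    refine ⟨-t, by linarith [(le_max_right T₁ (-T)).trans ht.1], ?_⟩
    have e := lfunction_conj_inv hχ (s := critPt (-t)) (by rw [critPt_re]; norm_num)
    rw [show conj (critPt (-t)) = critPt t from Complex.ext (by simp [critPt]) (by simp [critPt]),
      h0] at e
    exact (map_eq_zero _).1 e.symm

/-- **At least `c T^(1/4)` zeros on the line up to height `T`.** -/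
theorem exists_line_count (hp : χ.IsPrimitive) (hχ : χ ≠ 1) : ∃ c T₀ : ℝ, 0 < c ∧
    ∀ T : ℝ, T₀ ≤ T → {t : ℝ | 0 < t ∧ t ≤ T ∧ LFunction χ (critPt t) = 0}.Finite ∧
      c * T ^ (1 / 4 : ℝ) ≤
        {t : ℝ | 0 < t ∧ t ≤ T ∧ LFunction χ (critPt t) = 0}.ncard := by
  obtain ⟨C, T₀, hC, h1, h⟩ := exists_line_zero hp hχ
  refine ⟨1 / (4 * (C + 1)), max (2 * T₀) ((2 * (C + 1)) ^ 4), by positivity, fun T hT => ?_⟩
  have hT0 : 2 * T₀ ≤ T := (le_max_left _ _).trans hT
  have hT4 : (2 * (C + 1)) ^ 4 ≤ T := (le_max_right _ _).trans hT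
  have hfin : {t : ℝ | 0 < t ∧ t ≤ T ∧ LFunction χ (critPt t) = 0}.Finite := by
    refine ((FA.DirichletZeroCount.finite_lZeros hχ T).image Complex.im).subset ?_
    rintro t ⟨ht0, htT, ht⟩
    exact ⟨critPt t, ⟨ht, by rw [critPt_re]; norm_num, by rw [critPt_re]; norm_num,
      by simp [critPt, abs_of_pos ht0, htT]⟩, by simp [critPt]⟩
  refine ⟨hfin, ?_⟩
  obtain ⟨W, hW⟩ : ∃ W : ℝ, W = T ^ (3 / 4 : ℝ) := ⟨_, rfl⟩
  obtain ⟨Q, hQ⟩ : ∃ Q : ℝ, Q = T ^ (1 / 4 : ℝ) := ⟨_, rfl⟩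
  have hTp : 0 < T := by linarith
  have hW1 : 1 ≤ W := hW ▸ Real.one_le_rpow (by linarith) (by norm_num)
  have hWQ : Q * W = T := by
    rw [hQ, hW, ← Real.rpow_add hTp]
    norm_num
  have hQ1 : 2 * (C + 1) ≤ Q := by
    rw [hQ]
    refine le_trans (le_of_eq ?_) (Real.rpow_le_rpow (by positivity) hT4 (by norm_num))
    rw [← Real.rpow_natCast (2 * (C + 1)) 4, ← Real.rpow_mul (by positivity)]
    norm_num
  rw [← hQ]
  obtain ⟨L, hL⟩ : ∃ L : ℝ, L = (C + 1) * W := ⟨_, rfl⟩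
  have hL0 : 0 < L := by rw [hL]; positivity
  obtain ⟨k, hk⟩ : ∃ k : ℕ, k = ⌊Q / (2 * (C + 1))⌋₊ := ⟨_, rfl⟩
  have hkle : (k : ℝ) * L ≤ T / 2 := by
    have := Nat.floor_le (show 0 ≤ Q / (2 * (C + 1)) from div_nonneg (by linarith) (by positivity))
    rw [← hk, le_div_iff₀ (by positivity)] at this
    have := mul_le_mul_of_nonneg_right this (show 0 ≤ W by linarith)
    rw [hWQ] at this
    rw [hL]
    linarith
  have hwin : ∀ j < k, ∃ t, T / 2 + j * L ≤ t ∧ t < T / 2 + (j + 1) * L ∧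
      0 < t ∧ t ≤ T ∧ LFunction χ (critPt t) = 0 := fun j hj => by
    have hjk : ((j : ℝ) + 1) * L ≤ k * L := mul_le_mul_of_nonneg_right
      (by exact_mod_cast hj) hL0.le
    have hjL : 0 ≤ (j : ℝ) * L := by positivity
    obtain ⟨-, t, ht, h0⟩ := h (T / 2 + j * L) (by linarith)
    have hw : C * (T / 2 + j * L) ^ (3 / 4 : ℝ) ≤ C * W := mul_le_mul_of_nonneg_left
      (hW ▸ Real.rpow_le_rpow (by linarith) (by linarith) (by norm_num)) hC.le
    have hCL : C * W < L := by rw [hL]; linarith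
    exact ⟨t, ht.1, by linarith [ht.2], by linarith [ht.1], by linarith [ht.2], h0⟩
  choose f hf1 hf2 hf3 hf4 hf5 using hwin
  have hinj : ∀ i j (hi : i < k) (hj : j < k), i < j → f i hi < f j hj := fun i j hi hj hij => by
    have : ((i : ℝ) + 1) * L ≤ j * L :=
      mul_le_mul_of_nonneg_right (by exact_mod_cast hij) hL0.le
    linarith [hf2 i hi, hf1 j hj]
  have hcard : k ≤ {t : ℝ | 0 < t ∧ t ≤ T ∧ LFunction χ (critPt t) = 0}.ncard := by
    rw [Set.ncard_eq_toFinset_card _ hfin]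
    refine le_trans (le_of_eq ?_) (Finset.card_le_card_of_injOn
      (s := (Finset.univ : Finset (Fin k))) (fun i => f i.1 i.2)
      (fun i _ => by simp [hf3, hf4, hf5]) fun i _ j _ hij => ?_)
    · simp
    · rcases lt_trichotomy i j with hlt | heq | hgt
      · exact absurd hij (hinj i.1 j.1 i.2 j.2 hlt).ne
      · exact heq
      · exact absurd hij (hinj j.1 i.1 j.2 i.2 hgt).ne'
  have hfl := Nat.lt_floor_add_one (Q / (2 * (C + 1)))
  rw [← hk] at hfl
  have hX : 1 ≤ Q / (2 * (C + 1)) := by rwa [one_le_div (by positivity)]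
  have hk1 : 1 ≤ k := hk ▸ (Nat.one_le_floor_iff _).2 hX
  have hk1' : (1 : ℝ) ≤ k := Nat.one_le_cast.2 hk1
  have e : 1 / (4 * (C + 1)) * Q = Q / (2 * (C + 1)) / 2 := by field_simp; ring
  rw [e]
  have hcard' : (k : ℝ) ≤ ({t : ℝ | 0 < t ∧ t ≤ T ∧ LFunction χ (critPt t) = 0}.ncard : ℝ) :=
    Nat.cast_le.2 hcard
  linarith

end FA.DirichletLineZeros

end
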