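import Fermat.Agent.Tau.SiegelBound
import Mathlib.Analysis.SpecialFunctions.ImproperIntegrals
import Mathlib.MeasureTheory.Integral.IntegralEqImproper

/-!
# The series of a Dirichlet L-function cut at `N`

Since the partial sums of a character are periodic, subtracting their mean over a period from the
integral representation gives `L (s, χ) - ∑_{n ≤ N} χ n n^(-s)` up to
`2 q N^(-σ) + 4 q² |s| |s + 1| N^(-σ - 1)`, for `σ = re s > 0` and `N ≥ q`.
-/

set_option autoImplicit false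

noncomputable section

namespace FA.DirichletLineZeros

open Complex Filter Topology Set MeasureTheory
open DirichletCharacter (LFunction)
open FA.Siegel (charSum tail norm_charSum_le measurable_charSum)

variable {q : ℕ} [NeZero q] {χ : DirichletCharacter ℂ q}

theorem charSum_add_period (hχ : χ ≠ 1) {u : ℝ} (hu : 0 ≤ u) :
    charSum χ (u + q) = charSum χ u := by
  have e : ∀ k : ℕ, ∑ n ∈ Finset.Icc 1 k, χ n = ∑ i ∈ Finset.range k, χ ((i + 1 : ℕ) : ZMod q) :=
    fun k => by
    rw [show Finset.Icc 1 k = Finset.Ico (0 + 1) (k + 1) from rfl,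
      ← Finset.sum_Ico_add' (fun n : ℕ => χ n) 0 k 1, ← Finset.range_eq_Ico]
  rw [charSum, charSum, Nat.floor_add_natCast hu, e, e, add_comm ⌊u⌋₊ q, Finset.sum_range_add,
    FA.Siegel.sum_period hχ, zero_add]
  exact Finset.sum_congr rfl fun i _ => by simp [add_assoc]

theorem charSum_add_mul_period (hχ : χ ≠ 1) {u : ℝ} (hu : 0 ≤ u) (j : ℕ) :
    charSum χ (u + j * q) = charSum χ u := by
  induction j with
  | zero => simp
  | succ j ih =>
    rw [show u + ((j + 1 : ℕ) : ℝ) * q = u + j * q + q by push_cast; ring,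
      charSum_add_period hχ (by positivity), ih]

theorem intervalIntegrable_charSum (hχ : χ ≠ 1) (a b : ℝ) :
    IntervalIntegrable (charSum χ) volume a b :=
  (intervalIntegrable_const (c := (q : ℝ))).mono_fun' (measurable_charSum χ).aestronglyMeasurable
    (Eventually.of_forall fun t => norm_charSum_le hχ t)

/-- The mean of the partial sums over the period that starts at `N`. -/
def periodMean (χ : DirichletCharacter ℂ q) (N : ℕ) : ℂ :=
  (q : ℂ)⁻¹ * ∫ u in (N : ℝ)..(N + q), charSum χ u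

theorem norm_periodMean_le (hχ : χ ≠ 1) (N : ℕ) : ‖periodMean χ N‖ ≤ q := by
  have hq : (q : ℝ) ≠ 0 := Nat.cast_ne_zero.2 (NeZero.ne q)
  rw [periodMean, norm_mul, norm_inv, Complex.norm_natCast]
  refine (mul_le_mul_of_nonneg_left (intervalIntegral.norm_integral_le_of_norm_le_const
    fun u _ => norm_charSum_le hχ u) (by positivity)).trans (le_of_eq ?_)
  rw [add_sub_cancel_left, abs_of_nonneg (Nat.cast_nonneg q)]
  field_simp

/-- Over a period the partial sums minus their mean integrate to `0`. -/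
theorem integral_period_eq_zero (hχ : χ ≠ 1) (N j : ℕ) :
    ∫ u in ((N : ℝ) + j * q)..((N : ℝ) + j * q + q), charSum χ u - periodMean χ N = 0 := by
  have hq : (q : ℂ) ≠ 0 := Nat.cast_ne_zero.2 (NeZero.ne q)
  have hshift : (∫ u in ((N : ℝ) + j * q)..((N : ℝ) + j * q + q), charSum χ u) =
      ∫ u in (N : ℝ)..(N + q), charSum χ u := by
    rw [show (N : ℝ) + j * q + q = ((N : ℝ) + q) + j * q by ring,
      ← intervalIntegral.integral_comp_add_right]
    refine intervalIntegral.integral_congr fun u hu => charSum_add_mul_period hχ ?_ j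
    rw [uIcc_of_le (by simp)] at hu
    exact (Nat.cast_nonneg N).trans hu.1
  rw [intervalIntegral.integral_sub (intervalIntegrable_charSum hχ _ _) intervalIntegrable_const,
    hshift, intervalIntegral.integral_const, add_sub_cancel_left, periodMean, Complex.real_smul,
    ofReal_natCast, mul_inv_cancel_left₀ hq, sub_self]

theorem continuousOn_cpow_pos (c : ℂ) {a b : ℝ} (ha : 0 < a) (hab : a ≤ b) :
    ContinuousOn (fun u : ℝ => (u : ℂ) ^ c) (uIcc a b) := fun u hu => by
  rw [uIcc_of_le hab] at hu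
  exact (continuousAt_ofReal_cpow_const _ _ (Or.inr (ha.trans_le hu.1).ne')).continuousWithinAt

/-- **The integral from `1` to `N` is the partial sum of the series.** -/
theorem head_eq (hχ : χ ≠ 1) {s : ℂ} (hs : 0 < s.re) {N : ℕ} (hN : 1 ≤ N) :
    s * (∫ u in (1 : ℝ)..N, charSum χ u * (u : ℂ) ^ (-(s + 1))) =
      (∑ n ∈ Finset.Icc 1 N, χ n * (n : ℂ) ^ (-s)) - charSum χ N * (N : ℂ) ^ (-s) := by
  have hs0 : s ≠ 0 := fun h => by rw [h, zero_re] at hs; exact lt_irrefl _ hs
  have hii : ∀ a b : ℝ, 0 < a → a ≤ b →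
      IntervalIntegrable (fun u : ℝ => charSum χ u * (u : ℂ) ^ (-(s + 1))) volume a b :=
    fun a b ha hab => (intervalIntegrable_charSum hχ a b).mul_continuousOn
      (continuousOn_cpow_pos _ ha hab)
  induction N, hN using Nat.le_induction with
  | base => simp [charSum]
  | succ N hN ih =>
    have hNr : (1 : ℝ) ≤ N := Nat.one_le_cast.2 hN
    have hstep : (∫ u in (N : ℝ)..((N + 1 : ℕ) : ℝ), charSum χ u * (u : ℂ) ^ (-(s + 1))) =
        charSum χ N * ((((N + 1 : ℕ) : ℂ) ^ (-s) - (N : ℂ) ^ (-s)) / (-s)) := by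
      rw [intervalIntegral.integral_congr_ae
        (g := fun u : ℝ => charSum χ N * (u : ℂ) ^ (-(s + 1))) ?_,
        intervalIntegral.integral_const_mul, integral_cpow (Or.inr ⟨fun h => hs0 ?_, ?_⟩),
        show -(s + 1) + 1 = -s by ring, ofReal_natCast, ofReal_natCast]
      · rw [uIcc_of_le (Nat.cast_le.2 (Nat.le_succ N))]
        exact fun h => by linarith [h.1]
      · linear_combination -h
      · filter_upwards [Countable.ae_notMem (Set.countable_singleton ((N + 1 : ℕ) : ℝ)) volume]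
          with u hu hu'
        rw [uIoc_of_le (Nat.cast_le.2 (Nat.le_succ N))] at hu'
        congr 1
        rw [charSum, charSum, Nat.floor_natCast, (Nat.floor_eq_iff (by linarith [hu'.1])).2
          ⟨hu'.1.le, lt_of_le_of_ne (by simpa using hu'.2) (by simpa using hu)⟩]
    have hsum : charSum χ ((N + 1 : ℕ) : ℝ) = charSum χ N + χ ((N + 1 : ℕ) : ZMod q) := by
      simp only [charSum, Nat.floor_natCast]
      exact Finset.sum_Icc_succ_top (by omega) _
    rw [← intervalIntegral.integral_add_adjacent_intervals (b := (N : ℝ)) (hii _ _ one_pos hNr)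
      (hii _ _ (by linarith) (Nat.cast_le.2 (Nat.le_succ N))), mul_add, ih, hstep,
      Finset.sum_Icc_succ_top (show 1 ≤ N + 1 by omega), hsum]
    field_simp
    ring

/-- One period of the remainder. -/
theorem norm_period_piece_le (hχ : χ ≠ 1) {s : ℂ} (hs : 0 < s.re) {N : ℕ} (hN : q ≤ N) (j : ℕ) :
    ‖∫ u in ((N : ℝ) + j * q)..((N : ℝ) + j * q + q),
        (charSum χ u - periodMean χ N) * (u : ℂ) ^ (-(s + 1))‖ ≤
      4 * (q : ℝ) ^ 2 * ‖s + 1‖ * (N : ℝ) ^ (-s.re) *
        (1 / ((N : ℝ) + j * q) - 1 / ((N : ℝ) + j * q + q)) := by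
  have hq : (0 : ℝ) < q := Nat.cast_pos.2 (NeZero.pos q)
  have hqN : (q : ℝ) ≤ N := Nat.cast_le.2 hN
  obtain ⟨w, hw⟩ : ∃ w : ℝ, w = (N : ℝ) + j * q := ⟨_, rfl⟩
  have hNw : (N : ℝ) ≤ w := by rw [hw]; exact le_add_of_nonneg_right (by positivity)
  have hw0 : 0 < w := by linarith
  rw [← hw]
  obtain ⟨f, hf⟩ : ∃ f : ℝ → ℂ, f = fun u : ℝ => (u : ℂ) ^ (-(s + 1)) := ⟨_, rfl⟩
  have hne : -(s + 1) ≠ 0 := fun h => by
    have := congrArg Complex.re h
    simp at this
    linarith
  have hlip : ∀ u ∈ Icc w (w + q), ‖f u - f w‖ ≤ ‖s + 1‖ * w ^ (-(s.re + 2)) * q := fun u hu => by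
    have hd : ∀ x ∈ Icc w (w + q), HasDerivWithinAt f (-(s + 1) * (x : ℂ) ^ (-(s + 1) - 1))
        (Icc w (w + q)) x := fun x hx => by
      rw [hf]
      exact (hasDerivAt_ofReal_cpow_const (by linarith [hx.1]) hne).hasDerivWithinAt
    have hb : ∀ x ∈ Icc w (w + q), ‖-(s + 1) * (x : ℂ) ^ (-(s + 1) - 1)‖ ≤
        ‖s + 1‖ * w ^ (-(s.re + 2)) := fun x hx => by
      rw [norm_mul, norm_neg, Complex.norm_cpow_eq_rpow_re_of_pos (by linarith [hx.1]),
        show (-(s + 1) - 1).re = -(s.re + 2) by simp; ring]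
      exact mul_le_mul_of_nonneg_left
        (Real.rpow_le_rpow_of_nonpos hw0 hx.1 (by linarith)) (norm_nonneg _)
    refine ((convex_Icc w (w + q)).norm_image_sub_le_of_norm_hasDerivWithin_le hd hb
      (left_mem_Icc.2 (by linarith)) hu).trans (mul_le_mul_of_nonneg_left ?_ (by positivity))
    rw [Real.norm_eq_abs, abs_of_nonneg (by linarith [hu.1])]
    linarith [hu.2]
  have hfc : ContinuousOn f (uIcc w (w + q)) :=
    hf ▸ continuousOn_cpow_pos _ hw0 (by linarith)
  have hgi : IntervalIntegrable (fun u => charSum χ u - periodMean χ N) volume w (w + q) :=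
    (intervalIntegrable_charSum hχ _ _).sub intervalIntegrable_const
  have he : (∫ u in w..w + q, (charSum χ u - periodMean χ N) * f u) =
      ∫ u in w..w + q, (charSum χ u - periodMean χ N) * (f u - f w) := by
    simp only [mul_sub]
    rw [intervalIntegral.integral_sub (hgi.mul_continuousOn hfc) (hgi.mul_const _),
      intervalIntegral.integral_mul_const, hw, integral_period_eq_zero hχ, zero_mul, sub_zero]
  have hfe : ∀ u : ℝ, (u : ℂ) ^ (-(s + 1)) = f u := fun u => by rw [hf]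
  simp only [hfe]
  rw [he]
  refine (intervalIntegral.norm_integral_le_of_norm_le_const
    (C := 2 * q * (‖s + 1‖ * w ^ (-(s.re + 2)) * q)) fun u hu => ?_).trans ?_
  · rw [uIoc_of_le (by linarith)] at hu
    rw [norm_mul]
    refine mul_le_mul ((norm_sub_le _ _).trans ?_) (hlip u ⟨hu.1.le, hu.2⟩) (norm_nonneg _)
      (by positivity)
    linarith [norm_charSum_le hχ u, norm_periodMean_le hχ N]
  rw [add_sub_cancel_left, abs_of_pos hq]
  have h1 : w ^ (-(s.re + 2)) ≤ (N : ℝ) ^ (-s.re) * (1 / w ^ 2) := by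
    rw [show -(s.re + 2) = -s.re + -2 by ring, Real.rpow_add hw0, Real.rpow_neg hw0.le 2,
      Real.rpow_two, one_div]
    exact mul_le_mul_of_nonneg_right
      (Real.rpow_le_rpow_of_nonpos (by linarith) hNw (by linarith)) (by positivity)
  have h2 : 2 * (q : ℝ) * (1 / w ^ 2) * q * q ≤ 4 * q ^ 2 * (1 / w - 1 / (w + q)) := by
    rw [show 1 / w - 1 / (w + q) = q / (w * (w + q)) by field_simp; ring,
      show 2 * (q : ℝ) * (1 / w ^ 2) * q * q = 2 * q ^ 2 * (q / w ^ 2) by ring,
      show 4 * (q : ℝ) ^ 2 * (q / (w * (w + q))) = 2 * q ^ 2 * (q / (w * (w + q) / 2)) by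
        field_simp; ring]
    refine mul_le_mul_of_nonneg_left (div_le_div_of_nonneg_left hq.le (by positivity) ?_)
      (by positivity)
    nlinarith
  calc 2 * (q : ℝ) * (‖s + 1‖ * w ^ (-(s.re + 2)) * q) * q
      ≤ 2 * q * (‖s + 1‖ * ((N : ℝ) ^ (-s.re) * (1 / w ^ 2)) * q) * q := by gcongr
    _ = ‖s + 1‖ * (N : ℝ) ^ (-s.re) * (2 * q * (1 / w ^ 2) * q * q) := by ring
    _ ≤ ‖s + 1‖ * (N : ℝ) ^ (-s.re) * (4 * q ^ 2 * (1 / w - 1 / (w + q))) :=
        mul_le_mul_of_nonneg_left h2 (by positivity)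
    _ = _ := by ring

/-- Finitely many periods of the remainder. -/
theorem norm_periods_le (hχ : χ ≠ 1) {s : ℂ} (hs : 0 < s.re) {N : ℕ} (hN : q ≤ N) (J : ℕ) :
    ‖∫ u in (N : ℝ)..((N : ℝ) + J * q), (charSum χ u - periodMean χ N) * (u : ℂ) ^ (-(s + 1))‖ ≤
      4 * (q : ℝ) ^ 2 * ‖s + 1‖ * (N : ℝ) ^ (-s.re) * (1 / N - 1 / ((N : ℝ) + J * q)) := by
  have hq : (0 : ℝ) < q := Nat.cast_pos.2 (NeZero.pos q)
  have hN0 : (0 : ℝ) < N := hq.trans_le (Nat.cast_le.2 hN)
  have hii : ∀ a b : ℝ, (N : ℝ) ≤ a → a ≤ b → IntervalIntegrable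
      (fun u : ℝ => (charSum χ u - periodMean χ N) * (u : ℂ) ^ (-(s + 1))) volume a b :=
    fun a b ha hab => ((intervalIntegrable_charSum hχ a b).sub
      intervalIntegrable_const).mul_continuousOn (continuousOn_cpow_pos _ (hN0.trans_le ha) hab)
  induction J with
  | zero => simp
  | succ J ih =>
    have hle : (N : ℝ) ≤ (N : ℝ) + J * q := le_add_of_nonneg_right (by positivity)
    rw [show (N : ℝ) + ((J + 1 : ℕ) : ℝ) * q = (N : ℝ) + J * q + q by push_cast; ring,
      ← intervalIntegral.integral_add_adjacent_intervals (hii _ _ le_rfl hle)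
        (hii _ _ hle (by linarith))]
    refine ((norm_add_le _ _).trans (add_le_add ih (norm_period_piece_le hχ hs hN J))).trans
      (le_of_eq (by ring))

/-- **The series cut at `N`.** -/
theorem norm_lfunction_sub_sum_le (hχ : χ ≠ 1) {s : ℂ} (hs : 0 < s.re) {N : ℕ} (hN : q ≤ N) :
    ‖LFunction χ s - ∑ n ∈ Finset.Icc 1 N, χ n * (n : ℂ) ^ (-s)‖ ≤
      2 * q * (N : ℝ) ^ (-s.re) +
        4 * (q : ℝ) ^ 2 * (‖s‖ * ‖s + 1‖) * (N : ℝ) ^ (-s.re - 1) := by
  have hq : (0 : ℝ) < q := Nat.cast_pos.2 (NeZero.pos q)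
  have hN0 : (0 : ℝ) < N := hq.trans_le (Nat.cast_le.2 hN)
  have hN1 : 1 ≤ N := (NeZero.pos q).trans_le hN
  have hs0 : s ≠ 0 := fun h => by rw [h, zero_re] at hs; exact lt_irrefl _ hs
  obtain ⟨m, hm⟩ : ∃ m, m = periodMean χ N := ⟨_, rfl⟩
  have hre : (-(s + 1)).re < -1 := by simp; linarith
  have hall := FA.Siegel.integrable_integrand hχ hs
  have hsub : IntegrableOn (fun u : ℝ => charSum χ u * (u : ℂ) ^ (-(s + 1))) (Ioi (N : ℝ)) :=
    hall.mono_set (Ioi_subset_Ioi (by exact_mod_cast hN1))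
  have hcp : IntegrableOn (fun u : ℝ => m * (u : ℂ) ^ (-(s + 1))) (Ioi (N : ℝ)) :=
    (integrableOn_Ioi_cpow_of_lt hre hN0).const_mul m
  have hgi : IntegrableOn (fun u : ℝ => (charSum χ u - m) * (u : ℂ) ^ (-(s + 1))) (Ioi (N : ℝ)) :=
    (hsub.sub hcp).congr (Eventually.of_forall fun u => (sub_mul _ _ _).symm)
  have hrest : ‖∫ u in Ioi (N : ℝ), (charSum χ u - m) * (u : ℂ) ^ (-(s + 1))‖ ≤
      4 * (q : ℝ) ^ 2 * ‖s + 1‖ * (N : ℝ) ^ (-s.re - 1) := by
    have hb : Tendsto (fun J : ℕ => (N : ℝ) + J * q) atTop atTop :=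
      tendsto_atTop_add_const_left _ _ (tendsto_natCast_atTop_atTop.atTop_mul_const hq)
    refine le_of_tendsto ((intervalIntegral_tendsto_integral_Ioi _ hgi hb).norm)
      (Eventually.of_forall fun J => ?_)
    rw [hm]
    refine (norm_periods_le hχ hs hN J).trans ?_
    rw [Real.rpow_sub_one hN0.ne', div_eq_mul_one_div ((N : ℝ) ^ (-s.re)) (N : ℝ), ← mul_assoc]
    exact mul_le_mul_of_nonneg_left (sub_le_self _ (by positivity)) (by positivity)
  have htail : tail χ s = (∫ u in (1 : ℝ)..N, charSum χ u * (u : ℂ) ^ (-(s + 1))) +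
      ((∫ u in Ioi (N : ℝ), (charSum χ u - m) * (u : ℂ) ^ (-(s + 1))) +
        m * (-((N : ℂ) ^ (-s)) / (-s))) := by
    have h1 := intervalIntegral.integral_interval_add_Ioi hall hsub
    rw [tail, ← h1]
    congr 1
    rw [show m * (-((N : ℂ) ^ (-s)) / (-s)) = ∫ u in Ioi (N : ℝ), m * (u : ℂ) ^ (-(s + 1)) by
      rw [integral_const_mul, integral_Ioi_cpow_of_lt hre hN0, show -(s + 1) + 1 = -s by ring,
        ofReal_natCast], ← integral_add hgi hcp]
    exact setIntegral_congr_fun measurableSet_Ioi fun u _ => by ring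
  have hkey : LFunction χ s - ∑ n ∈ Finset.Icc 1 N, χ n * (n : ℂ) ^ (-s) =
      (m - charSum χ N) * (N : ℂ) ^ (-s) +
        s * ∫ u in Ioi (N : ℝ), (charSum χ u - m) * (u : ℂ) ^ (-(s + 1)) := by
    rw [FA.Siegel.lfunction_eq hχ hs, htail, mul_add, head_eq hχ hs hN1]
    field_simp
    ring
  rw [hkey]
  refine (norm_add_le _ _).trans (add_le_add ?_ ?_)
  · rw [norm_mul, norm_natCast_cpow_of_pos (by omega), neg_re]
    refine mul_le_mul_of_nonneg_right ((norm_sub_le _ _).trans ?_) (by positivity)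
    rw [hm]
    linarith [norm_periodMean_le hχ N, norm_charSum_le hχ (N : ℝ)]
  · rw [norm_mul]
    exact (mul_le_mul_of_nonneg_left hrest (norm_nonneg s)).trans (le_of_eq (by ring))

end FA.DirichletLineZeros

end
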